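/-
S55 / 15b-IDELE-VAL (helper44): the unit sub-representation of the local units, its coinduction,
and the valuation map, in helper73's place-free coinduced model of the ideles.
-/
import Mathlib
import Fermat.Prelude.Def_GaloisRep_CompletionBridge
import Fermat.Agent.S55.Idele73.Basic

set_option autoImplicit false

open CategoryTheory

namespace Fermat.Agent.S55.IdeleVal44

open scoped NNReal

open Fermat.Agent.S55.Idele73.Basic

variable (q : ℕ) [Fact q.Prime]

/-- the norm character `(PadicAlgCl q)ˣ →* ℝ≥0` -/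
noncomputable def normHom : (PadicAlgCl q)ˣ →* ℝ≥0 :=
  (nnnormHom : PadicAlgCl q →*₀ ℝ≥0).toMonoidHom.comp (Units.coeHom (PadicAlgCl q))

@[simp] theorem normHom_apply (u : (PadicAlgCl q)ˣ) : normHom q u = ‖(u : PadicAlgCl q)‖₊ := rfl

theorem normHom_smul (τ : Gq q) (u : (PadicAlgCl q)ˣ) : normHom q (τ • u) = normHom q u := by
  simp only [normHom_apply]
  exact nnnorm_padicAlgCl_algEquiv q τ (u : PadicAlgCl q)

/-- the norm-one units of `PadicAlgCl q` -/
noncomputable def normOne : Subgroup (PadicAlgCl q)ˣ := (normHom q).ker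

theorem mem_normOne_iff (u : (PadicAlgCl q)ˣ) : u ∈ normOne q ↔ ‖(u : PadicAlgCl q)‖₊ = 1 :=
  MonoidHom.mem_ker

theorem smul_mem_normOne (τ : Gq q) {u : (PadicAlgCl q)ˣ} (hu : u ∈ normOne q) :
    τ • u ∈ normOne q := by
  rw [normOne, MonoidHom.mem_ker] at hu ⊢
  rw [normHom_smul, hu]

noncomputable instance : MulDistribMulAction (Gq q) (normOne q) where
  smul τ u := ⟨τ • (u : (PadicAlgCl q)ˣ), smul_mem_normOne q τ u.2⟩
  one_smul u := Subtype.ext (one_smul _ _)
  mul_smul σ τ u := Subtype.ext (mul_smul _ _ _)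
  smul_mul τ u v := Subtype.ext (smul_mul' _ _ _)
  smul_one τ := Subtype.ext (smul_one _)

@[simp] theorem coe_smul_normOne (τ : Gq q) (u : normOne q) :
    ((τ • u : normOne q) : (PadicAlgCl q)ˣ) = τ • (u : (PadicAlgCl q)ˣ) := rfl

/-- the norm-one units as a representation of the local Galois group -/
noncomputable abbrev unitsLoc : Rep ℤ (Gq q) := Rep.ofMulDistribMulAction (Gq q) (normOne q)

/-- the inclusion `unitsLoc q ⟶ localUnits q` -/
noncomputable def unitsLocIncl : unitsLoc q ⟶ localUnits q :=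
  Rep.ofHom
    { toLinearMap := ((normOne q).subtype.toAdditive).toIntLinearMap
      isIntertwining' := by
        intro τ
        ext u
        rfl }

theorem unitsLocIncl_hom_apply (u : unitsLoc q) :
    (unitsLocIncl q).hom u = Additive.ofMul ((Rep.toAdditive u).toMul : (PadicAlgCl q)ˣ) := rfl

theorem unitsLocIncl_injective : Function.Injective (unitsLocIncl q).hom := by
  intro u v h
  have h' : ((Rep.toAdditive u).toMul : (PadicAlgCl q)ˣ) = ((Rep.toAdditive v).toMul :
      (PadicAlgCl q)ˣ) := by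
    rw [unitsLocIncl_hom_apply, unitsLocIncl_hom_apply] at h
    exact Additive.ofMul.injective h
  exact Subtype.ext h'

/-- membership in the image of `unitsLocIncl` -/
theorem mem_range_unitsLocIncl_iff (a : localUnits q) :
    a ∈ LinearMap.range (unitsLocIncl q).hom.toLinearMap ↔
      ‖(((Rep.toAdditive a).toMul : (PadicAlgCl q)ˣ) : PadicAlgCl q)‖₊ = 1 := by
  constructor
  · rintro ⟨u, rfl⟩
    exact (mem_normOne_iff q _).mp (Rep.toAdditive u).toMul.2
  · intro h
    exact ⟨(Rep.toAdditive (M := Gq q) (G := normOne q)).symm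
      (Additive.ofMul ⟨(Rep.toAdditive a).toMul, (mem_normOne_iff q _).mpr h⟩), rfl⟩

/-! ### the valuation of `PadicAlgCl q`, normalised by `v(q) = 1` -/

/-- the additive valuation `v(u) = - log ‖u‖ / log q` on `(PadicAlgCl q)ˣ` -/
noncomputable def valAdd : Additive (PadicAlgCl q)ˣ →+ ℝ where
  toFun a := - Real.log ‖((a.toMul : (PadicAlgCl q)ˣ) : PadicAlgCl q)‖ / Real.log q
  map_zero' := by simp
  map_add' a b := by
    have ha : ‖((a.toMul : (PadicAlgCl q)ˣ) : PadicAlgCl q)‖ ≠ 0 := norm_ne_zero_iff.mpr (Units.ne_zero _)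
    have hb : ‖((b.toMul : (PadicAlgCl q)ˣ) : PadicAlgCl q)‖ ≠ 0 := norm_ne_zero_iff.mpr (Units.ne_zero _)
    simp only [toMul_add, Units.val_mul, norm_mul, Real.log_mul ha hb]
    ring

theorem valAdd_apply (a : Additive (PadicAlgCl q)ˣ) :
    valAdd q a = - Real.log ‖((a.toMul : (PadicAlgCl q)ˣ) : PadicAlgCl q)‖ / Real.log q := rfl

theorem log_q_pos : 0 < Real.log (q : ℝ) :=
  Real.log_pos (by exact_mod_cast (Fact.out : q.Prime).one_lt)

theorem valAdd_eq_zero_iff (a : Additive (PadicAlgCl q)ˣ) :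
    valAdd q a = 0 ↔ ‖((a.toMul : (PadicAlgCl q)ˣ) : PadicAlgCl q)‖₊ = 1 := by
  have hpos : 0 < ‖((a.toMul : (PadicAlgCl q)ˣ) : PadicAlgCl q)‖ :=
    norm_pos_iff.mpr (Units.ne_zero _)
  rw [valAdd_apply, div_eq_zero_iff, neg_eq_zero]
  constructor
  · rintro (h | h)
    · have := Real.eq_one_of_pos_of_log_eq_zero hpos h
      exact NNReal.eq (by simpa using this)
    · exact absurd h (log_q_pos q).ne'
  · intro h
    left
    have h' : ‖((a.toMul : (PadicAlgCl q)ˣ) : PadicAlgCl q)‖ = 1 := by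
      have := congrArg NNReal.toReal h
      simpa using this
    rw [h', Real.log_one]

theorem valAdd_smul (τ : Gq q) (a : Additive (PadicAlgCl q)ˣ) :
    valAdd q (Additive.ofMul (τ • a.toMul)) = valAdd q a := by
  have h := nnnorm_padicAlgCl_algEquiv q τ ((a.toMul : (PadicAlgCl q)ˣ) : PadicAlgCl q)
  have h' : ‖τ ((a.toMul : (PadicAlgCl q)ˣ) : PadicAlgCl q)‖ =
      ‖((a.toMul : (PadicAlgCl q)ˣ) : PadicAlgCl q)‖ := by
    have := congrArg NNReal.toReal h
    simpa using this
  simp only [valAdd_apply, toMul_ofMul]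
  rw [show ((τ • (a.toMul : (PadicAlgCl q)ˣ) : (PadicAlgCl q)ˣ) : PadicAlgCl q) =
    τ ((a.toMul : (PadicAlgCl q)ˣ) : PadicAlgCl q) from rfl, h']

/-- the valuation as a morphism of representations `localUnits q ⟶ ℝ` (trivial action) -/
noncomputable def valLoc : localUnits q ⟶ Rep.trivial ℤ (Gq q) ℝ :=
  Rep.ofHom
    { toLinearMap := (valAdd q).toIntLinearMap
      isIntertwining' := by
        intro τ
        ext a
        exact valAdd_smul q τ a }

theorem valLoc_hom_apply (a : localUnits q) :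
    (valLoc q).hom a = valAdd q (Rep.toAdditive a) := rfl

/-- the uniformizer `q` as a unit of `PadicAlgCl q` -/
noncomputable def qUnit : (PadicAlgCl q)ˣ :=
  Units.mk0 (q : PadicAlgCl q) (by exact_mod_cast (Fact.out : q.Prime).ne_zero)

@[simp] theorem coe_qUnit : ((qUnit q : (PadicAlgCl q)ˣ) : PadicAlgCl q) = (q : PadicAlgCl q) := rfl

theorem smul_qUnit (τ : Gq q) : τ • qUnit q = qUnit q := by
  apply Units.ext
  show τ ((qUnit q : (PadicAlgCl q)ˣ) : PadicAlgCl q) = _
  rw [coe_qUnit, map_natCast]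

theorem norm_q : ‖(q : PadicAlgCl q)‖ = (q : ℝ)⁻¹ := by
  have h := PadicAlgCl.valuation_p q
  have h2 := PadicAlgCl.valuation_coe q (q : PadicAlgCl q)
  rw [h] at h2
  rw [← h2]
  simp

theorem valAdd_qUnit : valAdd q (Additive.ofMul (qUnit q)) = 1 := by
  rw [valAdd_apply, toMul_ofMul, coe_qUnit, norm_q, Real.log_inv, neg_neg]
  exact div_self (log_q_pos q).ne'

theorem valAdd_qUnit_zpow (n : ℤ) : valAdd q (Additive.ofMul (qUnit q ^ n)) = n := by
  rw [ofMul_zpow, map_zsmul, valAdd_qUnit]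
  simp

/-! ### coinduction along an arbitrary `φ : Gq q →* G`

For `G = Gal(L/ℚ)` and `φ = locHom q L` this is helper73's `Jq q L` (the `q`-component of the
ideles of `L`), and `Uφ` is its unit subgroup `∏_{w ∣ q} 𝒪_wˣ`. -/

section Coind

variable {G : Type} [Group G] (φ : Gq q →* G)

/-- the `q`-component of the ideles, `∏_{w ∣ q} L_wˣ`, place-free -/
noncomputable abbrev Jφ : Rep ℤ G := Rep.coind φ (localUnits q)

/-- the `q`-component of the unit ideles, `∏_{w ∣ q} 𝒪_wˣ`, place-free -/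
noncomputable abbrev Uφ : Rep ℤ G := Rep.coind φ (unitsLoc q)

/-- the inclusion of the unit ideles -/
noncomputable abbrev inclφ : Uφ q φ ⟶ Jφ q φ := Rep.coindMap φ (unitsLocIncl q)

theorem inclφ_hom_apply (f : Uφ q φ) (g : G) :
    ((inclφ q φ).hom f).1 g = (unitsLocIncl q).hom (f.1 g) := rfl

theorem inclφ_injective : Function.Injective (inclφ q φ).hom := by
  intro f f' h
  apply Subtype.ext
  funext g
  apply unitsLocIncl_injective q
  have := congrArg (fun x : Jφ q φ => x.1 g) h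
  simpa [inclφ_hom_apply] using this

/-- an idele component is a unit idele iff all its coordinates have norm one -/
theorem mem_range_inclφ_iff (f : Jφ q φ) :
    f ∈ LinearMap.range (inclφ q φ).hom.toLinearMap ↔
      ∀ g : G, ‖(((Rep.toAdditive (f.1 g)).toMul : (PadicAlgCl q)ˣ) : PadicAlgCl q)‖₊ = 1 := by
  constructor
  · rintro ⟨u, rfl⟩ g
    exact (mem_range_unitsLocIncl_iff q _).mp ⟨u.1 g, rfl⟩
  · intro h
    have hmem : ∀ g, f.1 g ∈ LinearMap.range (unitsLocIncl q).hom.toLinearMap :=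
      fun g => (mem_range_unitsLocIncl_iff q _).mpr (h g)
    choose u hu using hmem
    refine ⟨⟨u, ?_⟩, ?_⟩
    · intro τ g
      apply unitsLocIncl_injective q
      have h1 : (unitsLocIncl q).hom (u (φ τ * g)) = f.1 (φ τ * g) := hu _
      have h2 : f.1 (φ τ * g) = (localUnits q).ρ τ (f.1 g) := f.2 τ g
      have h3 : (unitsLocIncl q).hom ((unitsLoc q).ρ τ (u g)) =
          (localUnits q).ρ τ ((unitsLocIncl q).hom (u g)) := by
        exact (Rep.hom_comm_apply (unitsLocIncl q) τ (u g))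
      rw [h1, h2, h3]
      congr 1
      exact (hu g).symm
    · apply Subtype.ext
      funext g
      exact hu g

/-- the real-valued valuation `∏_{w ∣ q} L_wˣ → ∏_{w ∣ q} ℝ`, place-free -/
noncomputable abbrev valR : Jφ q φ ⟶ Rep.coind φ (Rep.trivial ℤ (Gq q) ℝ) :=
  Rep.coindMap φ (valLoc q)

theorem valR_hom_apply (f : Jφ q φ) (g : G) :
    ((valR q φ).hom f).1 g = valAdd q (Rep.toAdditive (f.1 g)) := rfl

/-- the unit ideles are exactly the kernel of the valuation -/
theorem mem_range_inclφ_iff_valR (f : Jφ q φ) :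
    f ∈ LinearMap.range (inclφ q φ).hom.toLinearMap ↔ (valR q φ).hom f = 0 := by
  rw [mem_range_inclφ_iff]
  constructor
  · intro h
    apply Subtype.ext
    funext g
    rw [valR_hom_apply]
    exact (valAdd_eq_zero_iff q _).mpr (h g)
  · intro h g
    have h1 : ((valR q φ).hom f).1 g = 0 := by rw [h]; rfl
    rw [← valAdd_eq_zero_iff]
    rw [valR_hom_apply] at h1
    exact h1

theorem valR_inclφ_apply (f : Uφ q φ) : (valR q φ).hom ((inclφ q φ).hom f) = 0 :=
  (mem_range_inclφ_iff_valR q φ _).mp ⟨f, rfl⟩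

/-! #### the `ℤ`-valued valuation at an unramified prime -/

/-- `φ` is *unramified at `q`*: every element fixed by `ker φ` (i.e. every element of the
completion `L_w = ℚ_q(ι L)` when `φ = locHom q L`) has integral valuation. -/
def IsUnrAt : Prop :=
  ∀ u : (PadicAlgCl q)ˣ, (∀ τ ∈ φ.ker, τ • u = u) → ∃ n : ℤ, valAdd q (Additive.ofMul u) = n

/-- the coordinates of an element of the coinduced module are fixed by `ker φ` -/
theorem smul_coord_eq_of_mem_ker (f : Jφ q φ) (g : G) {τ : Gq q} (hτ : τ ∈ φ.ker) :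
    τ • ((Rep.toAdditive (f.1 g)).toMul : (PadicAlgCl q)ˣ) = (Rep.toAdditive (f.1 g)).toMul := by
  have h := f.2 τ g
  rw [MonoidHom.mem_ker.mp hτ, one_mul] at h
  have h2 : (localUnits q).ρ τ (f.1 g) =
      Additive.ofMul (τ • ((Rep.toAdditive (f.1 g)).toMul : (PadicAlgCl q)ˣ)) := rfl
  rw [h2] at h
  exact (Additive.ofMul.injective h).symm

variable {q φ} in
theorem IsUnrAt.exists_int (h : IsUnrAt q φ) (f : Jφ q φ) (g : G) :
    ∃ n : ℤ, valAdd q (Rep.toAdditive (f.1 g)) = n :=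
  h _ (fun _ hτ => smul_coord_eq_of_mem_ker q φ f g hτ)

variable {q φ} in
theorem IsUnrAt.floor_eq (h : IsUnrAt q φ) (f : Jφ q φ) (g : G) :
    ((⌊valAdd q (Rep.toAdditive (f.1 g))⌋ : ℤ) : ℝ) = valAdd q (Rep.toAdditive (f.1 g)) := by
  obtain ⟨n, hn⟩ := h.exists_int f g
  rw [hn, Int.floor_intCast]

/-- the underlying additive map of `valZ` -/
noncomputable def valZAdd (h : IsUnrAt q φ) :
    Jφ q φ →+ Rep.coind φ (Rep.trivial ℤ (Gq q) ℤ) where
  toFun f := ⟨fun g => ⌊valAdd q (Rep.toAdditive (f.1 g))⌋, by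
    intro τ g
    have h1 : f.1 (φ τ * g) = (localUnits q).ρ τ (f.1 g) := f.2 τ g
    have h2 : valAdd q (Rep.toAdditive (f.1 (φ τ * g))) = valAdd q (Rep.toAdditive (f.1 g)) := by
      rw [h1]
      exact valAdd_smul q τ _
    show ⌊valAdd q (Rep.toAdditive (f.1 (φ τ * g)))⌋ = ⌊valAdd q (Rep.toAdditive (f.1 g))⌋
    rw [h2]⟩
  map_zero' := by
    apply Subtype.ext
    funext g
    show ⌊valAdd q (Rep.toAdditive ((0 : Jφ q φ).1 g))⌋ = 0
    have h0 : valAdd q (Rep.toAdditive ((0 : Jφ q φ).1 g)) = 0 := map_zero (valAdd q)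
    rw [h0, Int.floor_zero]
  map_add' f f' := by
    apply Subtype.ext
    funext g
    show ⌊valAdd q (Rep.toAdditive ((f + f').1 g))⌋ =
      ⌊valAdd q (Rep.toAdditive (f.1 g))⌋ + ⌊valAdd q (Rep.toAdditive (f'.1 g))⌋
    have h0 : valAdd q (Rep.toAdditive ((f + f').1 g)) =
        valAdd q (Rep.toAdditive (f.1 g)) + valAdd q (Rep.toAdditive (f'.1 g)) :=
      map_add (valAdd q) (Rep.toAdditive (f.1 g)) (Rep.toAdditive (f'.1 g))
    obtain ⟨n, hn⟩ := h.exists_int f g
    obtain ⟨m, hm⟩ := h.exists_int f' g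
    rw [h0, hn, hm]
    rw [← Int.cast_add, Int.floor_intCast, Int.floor_intCast, Int.floor_intCast]

/-- the `ℤ`-valued valuation `∏_{w ∣ q} L_wˣ → ∏_{w ∣ q} ℤ` at an unramified prime, place-free -/
noncomputable def valZ (h : IsUnrAt q φ) : Jφ q φ ⟶ Rep.coind φ (Rep.trivial ℤ (Gq q) ℤ) :=
  Rep.ofHom
    { toLinearMap := (valZAdd q φ h).toIntLinearMap
      isIntertwining' := by
        intro σ
        ext f
        rfl }

theorem valZ_hom_apply (h : IsUnrAt q φ) (f : Jφ q φ) (g : G) :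
    ((((valZ q φ h).hom f).1 g : ℤ) : ℝ) = valAdd q (Rep.toAdditive (f.1 g)) :=
  h.floor_eq f g

theorem mem_range_inclφ_iff_valZ (h : IsUnrAt q φ) (f : Jφ q φ) :
    f ∈ LinearMap.range (inclφ q φ).hom.toLinearMap ↔ (valZ q φ h).hom f = 0 := by
  rw [mem_range_inclφ_iff_valR]
  constructor
  · intro h0
    apply Subtype.ext
    funext g
    have h1 : ((valR q φ).hom f).1 g = 0 := by rw [h0]; rfl
    rw [valR_hom_apply] at h1
    have h2 := valZ_hom_apply q φ h f g
    rw [h1] at h2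
    exact_mod_cast h2
  · intro h0
    apply Subtype.ext
    funext g
    have h1 : ((valZ q φ h).hom f).1 g = 0 := by rw [h0]; rfl
    have h2 := valZ_hom_apply q φ h f g
    rw [h1] at h2
    rw [valR_hom_apply, ← h2]
    simp

/-- a section of `valZ`: the idele with coordinates `q ^ h g` -/
noncomputable def qPow (h : Rep.coind φ (Rep.trivial ℤ (Gq q) ℤ)) : Jφ q φ :=
  ⟨fun g => (Rep.toAdditive (M := Gq q) (G := (PadicAlgCl q)ˣ)).symm
      (Additive.ofMul (qUnit q ^ (h.1 g))), by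
    intro τ g
    have h1 : h.1 (φ τ * g) = h.1 g := h.2 τ g
    show Additive.ofMul (qUnit q ^ (h.1 (φ τ * g))) =
      Additive.ofMul (τ • (qUnit q ^ (h.1 g)))
    rw [h1, smul_zpow', smul_qUnit]⟩

theorem qPow_apply (h : Rep.coind φ (Rep.trivial ℤ (Gq q) ℤ)) (g : G) :
    Rep.toAdditive ((qPow q φ h).1 g) = Additive.ofMul (qUnit q ^ (h.1 g)) := rfl

theorem valZ_qPow (hφ : IsUnrAt q φ) (h : Rep.coind φ (Rep.trivial ℤ (Gq q) ℤ)) :
    (valZ q φ hφ).hom (qPow q φ h) = h := by
  apply Subtype.ext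
  funext g
  have h1 := valZ_hom_apply q φ hφ (qPow q φ h) g
  rw [qPow_apply, valAdd_qUnit_zpow] at h1
  exact_mod_cast h1

theorem valZ_surjective (hφ : IsUnrAt q φ) : Function.Surjective (valZ q φ hφ).hom :=
  fun h => ⟨qPow q φ h, valZ_qPow q φ hφ h⟩

end Coind

end Fermat.Agent.S55.IdeleVal44
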