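/-
S55 / 15b-IDELE-SIDELE (helper44): S-units of a level `L` and the module of fractional ideals
prime to `S`, in helper73's place-free coinduced model of the ideles.
-/
import Mathlib
import Fermat.Prelude.Def_GaloisRep_CompletionBridge
import Fermat.Agent.S55.Idele73.Basic
import Fermat.Agent.S55.IdeleVal44.Val

set_option autoImplicit false

open CategoryTheory

namespace Fermat.Agent.S55.IdeleVal44

open scoped NNReal DirectSum

open Fermat.Agent.S55.Idele73.Basic

/-- primes as `Fact`s -/
local instance factPrimes44 (ℓ : Nat.Primes) : Fact ℓ.1.Prime := ⟨ℓ.2⟩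

variable (L : IntermediateField ℚ Qbar) [Normal ℚ L]

section UnitAt

variable (q : ℕ) [Fact q.Prime]

/-- `x ∈ Lˣ` is a unit at every place of `L` above `q` (place-free: all conjugates have
`q`-adic norm one). -/
def IsUnitAt (x : Lˣ) : Prop := ∀ g : GalL L, ‖iotaL q L (g (x : L))‖₊ = 1

theorem diag_hom_apply (x : Lx L) (g : GalL L) :
    Rep.toAdditive (((diag q L).hom x).1 g) =
      Additive.ofMul (Units.map (iotaL q L).toMonoidHom (g • (Rep.toAdditive x).toMul)) := by
  rfl

theorem norm_diag_coord (x : Lx L) (g : GalL L) :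
    ‖(((Rep.toAdditive (((diag q L).hom x).1 g)).toMul : (PadicAlgCl q)ˣ) : PadicAlgCl q)‖₊ =
      ‖iotaL q L (g (((Rep.toAdditive x).toMul : Lˣ) : L))‖₊ := by
  rfl

/-- `x` is a unit above `q` iff its diagonal image is a unit idele -/
theorem isUnitAt_iff_mem_range (x : Lˣ) :
    IsUnitAt L q x ↔
      (diag q L).hom ((Rep.toAdditive (M := GalL L) (G := Lˣ)).symm (Additive.ofMul x)) ∈
        LinearMap.range (inclφ q (locHom q L)).hom.toLinearMap := by
  rw [mem_range_inclφ_iff]
  constructor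
  · intro h g
    rw [norm_diag_coord]
    exact h g
  · intro h g
    have := h g
    rw [norm_diag_coord] at this
    exact this

theorem isUnitAt_one : IsUnitAt L q 1 := by
  intro g
  simp

theorem IsUnitAt.mul {x y : Lˣ} (hx : IsUnitAt L q x) (hy : IsUnitAt L q y) :
    IsUnitAt L q (x * y) := by
  intro g
  rw [Units.val_mul, map_mul, map_mul, nnnorm_mul, hx g, hy g, mul_one]

theorem IsUnitAt.inv {x : Lˣ} (hx : IsUnitAt L q x) : IsUnitAt L q x⁻¹ := by
  intro g
  rw [Units.val_inv_eq_inv_val, map_inv₀, map_inv₀, nnnorm_inv, hx g, inv_one]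

theorem IsUnitAt.smul {x : Lˣ} (hx : IsUnitAt L q x) (σ : GalL L) : IsUnitAt L q (σ • x) := by
  intro g
  exact hx (g * σ)

end UnitAt

/-! ### the `S`-units -/

section SUnits

variable (S : Finset Nat.Primes)

/-- the `S`-units of `L`, place-free -/
def ESsub : Subgroup Lˣ where
  carrier := {x | ∀ ℓ : Nat.Primes, ℓ ∉ S → IsUnitAt L ℓ.1 x}
  mul_mem' hx hy ℓ hℓ := (hx ℓ hℓ).mul L ℓ.1 (hy ℓ hℓ)
  one_mem' ℓ _ := isUnitAt_one L ℓ.1
  inv_mem' hx ℓ hℓ := (hx ℓ hℓ).inv L ℓ.1

theorem mem_ESsub_iff (x : Lˣ) :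
    x ∈ ESsub L S ↔ ∀ ℓ : Nat.Primes, ℓ ∉ S → IsUnitAt L ℓ.1 x := Iff.rfl

theorem smul_mem_ESsub (σ : GalL L) {x : Lˣ} (hx : x ∈ ESsub L S) : σ • x ∈ ESsub L S :=
  fun ℓ hℓ => (hx ℓ hℓ).smul L ℓ.1 σ

noncomputable instance : MulDistribMulAction (GalL L) (ESsub L S) where
  smul σ x := ⟨σ • (x : Lˣ), smul_mem_ESsub L S σ x.2⟩
  one_smul x := Subtype.ext (one_smul _ _)
  mul_smul σ τ x := Subtype.ext (mul_smul _ _ _)
  smul_mul σ x y := Subtype.ext (smul_mul' _ _ _)
  smul_one σ := Subtype.ext (smul_one _)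

/-- the `S`-units of `L` as a `Gal(L/ℚ)`-module -/
noncomputable abbrev ES : Rep ℤ (GalL L) := Rep.ofMulDistribMulAction (GalL L) (ESsub L S)

/-- the inclusion `E_S(L) ⟶ Lˣ` -/
noncomputable def ESincl : ES L S ⟶ Lx L :=
  Rep.ofHom
    { toLinearMap := ((ESsub L S).subtype.toAdditive).toIntLinearMap
      isIntertwining' := by
        intro σ
        ext u
        rfl }

theorem ESincl_injective : Function.Injective (ESincl L S).hom := by
  intro u v h
  have h' : ((Rep.toAdditive u).toMul : Lˣ) = ((Rep.toAdditive v).toMul : Lˣ) :=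
    Additive.ofMul.injective h
  exact Subtype.ext h'

theorem mem_range_ESincl_iff (a : Lx L) :
    a ∈ LinearMap.range (ESincl L S).hom.toLinearMap ↔
      ((Rep.toAdditive a).toMul : Lˣ) ∈ ESsub L S := by
  constructor
  · rintro ⟨u, rfl⟩
    exact (Rep.toAdditive u).toMul.2
  · intro h
    exact ⟨(Rep.toAdditive (M := GalL L) (G := ESsub L S)).symm
      (Additive.ofMul ⟨(Rep.toAdditive a).toMul, h⟩), rfl⟩

end SUnits

/-! ### direct sums of representations over `ℤ`

(`Representation.directSum` with all instances spelled out, so that no `ℤ`-module diamond can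
occur.) -/

section DirectSumRep

variable {G : Type} [Group G] {ι : Type} (A : ι → Rep ℤ G)

/-- the direct sum of a family of `ℤ`-linear representations -/
noncomputable def dsRep : Rep ℤ G :=
  @Rep.of ℤ G _ _ (⨁ i, (A i)) _
    (@DirectSum.instModule ℤ _ ι (fun i => A i) _ (fun i => (A i).hV2))
    (@Representation.directSum ℤ G _ _ ι (fun i => A i) _ (fun i => (A i).hV2) (fun i => (A i).ρ))

/-- elements of `dsRep A` are finitely supported families -/
def dsRep.toDS (x : dsRep A) : ⨁ i, (A i) := x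

/-- finitely supported families are elements of `dsRep A` -/
def dsRep.ofDS (x : ⨁ i, (A i)) : dsRep A := x

@[simp] theorem dsRep.toDS_ofDS (x : ⨁ i, (A i)) : dsRep.toDS A (dsRep.ofDS A x) = x := rfl

@[simp] theorem dsRep.ofDS_toDS (x : dsRep A) : dsRep.ofDS A (dsRep.toDS A x) = x := rfl

theorem dsRep.ρ_apply (g : G) (x : dsRep A) (i : ι) :
    dsRep.toDS A ((dsRep A).ρ g x) i = (A i).ρ g (dsRep.toDS A x i) := rfl

theorem dsRep.ext {x y : dsRep A} (h : ∀ i, dsRep.toDS A x i = dsRep.toDS A y i) : x = y :=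
  DFinsupp.ext h

theorem dsRep.toDS_add (x y : dsRep A) (i : ι) :
    dsRep.toDS A (x + y) i = dsRep.toDS A x i + dsRep.toDS A y i := rfl

theorem dsRep.toDS_zero (i : ι) : dsRep.toDS A (0 : dsRep A) i = 0 := rfl

end DirectSumRep

/-! ### the `S`-ideles `J_S(L) = ∏_{q ∈ S} ∏_{w ∣ q} L_wˣ` -/

section JS

variable (S : Finset Nat.Primes)

/-- index type of the primes in `S` -/
abbrev InS : Type := {q : Nat.Primes // q ∈ S}

/-- index type of the primes outside `S` -/
abbrev OutS : Type := {ℓ : Nat.Primes // ℓ ∉ S}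

/-- the `S`-ideles of `L`: the (finite) direct sum of the `Jq q L`, `q ∈ S` -/
noncomputable abbrev JS : Rep ℤ (GalL L) := dsRep (fun q : InS S => Jq q.1.1 L)

/-- the underlying additive map of the diagonal `Lˣ → J_S(L)` -/
noncomputable def diagSAdd : Lx L →+ JS L S where
  toFun x := dsRep.ofDS _ (DFinsupp.equivFunOnFintype.symm (fun q : InS S => (diag q.1.1 L).hom x))
  map_zero' := by
    apply dsRep.ext
    intro q
    show (diag q.1.1 L).hom 0 = 0
    exact map_zero _
  map_add' x y := by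
    apply dsRep.ext
    intro q
    show (diag q.1.1 L).hom (x + y) = (diag q.1.1 L).hom x + (diag q.1.1 L).hom y
    exact map_add _ _ _

theorem diagSAdd_apply (x : Lx L) (q : InS S) :
    dsRep.toDS _ (diagSAdd L S x) q = (diag q.1.1 L).hom x := rfl

/-- the diagonal embedding `Lˣ ⟶ J_S(L)` -/
noncomputable def diagS : Lx L ⟶ JS L S :=
  Rep.ofHom
    { toLinearMap := (diagSAdd L S).toIntLinearMap
      isIntertwining' := by
        intro g
        refine LinearMap.ext fun x => ?_
        apply dsRep.ext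
        intro q
        show dsRep.toDS _ (diagSAdd L S ((Lx L).ρ g x)) q =
          dsRep.toDS _ ((JS L S).ρ g (diagSAdd L S x)) q
        rw [dsRep.ρ_apply, diagSAdd_apply, diagSAdd_apply]
        exact Rep.hom_comm_apply (diag q.1.1 L) g x }

theorem diagS_hom_apply (x : Lx L) (q : InS S) :
    dsRep.toDS _ ((diagS L S).hom x) q = (diag q.1.1 L).hom x := diagSAdd_apply L S x q

end JS

end Fermat.Agent.S55.IdeleVal44
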