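/-
S55 / 15b-IDELE-SIDELE (helper44), part 2: the module `I^S(L)` of fractional ideals prime to `S`
(place-free: `⨁_{ℓ ∉ S} coind ℤ`) and the ideal map `Lˣ ⟶ I^S(L)`, whose kernel is `E_S(L)`.
-/
import Mathlib
import Fermat.Prelude.Def_GaloisRep_CompletionBridge
import Fermat.Agent.S55.Idele73.Basic
import Fermat.Agent.S55.PlaceDict58
import Fermat.Agent.S55.IdeleVal44.Val
import Fermat.Agent.S55.IdeleVal44.SIdele

set_option autoImplicit false

open CategoryTheory

namespace Fermat.Agent.S55.IdeleVal44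

open scoped NNReal DirectSum

open Fermat.Agent.S55.Idele73.Basic

attribute [local instance] factPrimes44

variable (L : IntermediateField ℚ Qbar) [Normal ℚ L]

/-- **almost all units**: an element of `Lˣ` is a unit above almost all primes
(from helper58's `PlaceDict58.finite_setOf_exists_nrm_ne_one`). -/
theorem finite_setOf_not_isUnitAt (x : Lˣ) : {ℓ : Nat.Primes | ¬ IsUnitAt L ℓ.1 x}.Finite := by
  refine (PlaceDict58.finite_setOf_exists_nrm_ne_one L x).subset ?_
  intro ℓ hℓ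
  simp only [Set.mem_setOf_eq, IsUnitAt, not_forall] at hℓ
  obtain ⟨g, hg⟩ := hℓ
  refine ⟨L.val.comp (g : L →ₐ[ℚ] L), ?_⟩
  intro h
  apply hg
  have h' : ‖iotaL ℓ.1 L (g (x : L))‖ = 1 := h
  exact NNReal.eq h'

section Ideal

variable (S : Finset Nat.Primes)

/-- `L` is unramified at all primes outside `S`, in the form: the valuations of the completions
above `ℓ ∉ S` are `ℤ`-valued (discharged for `S`-levels by helper42's
`UnrBridge42.isUnrAt_locHom`). -/
def UnrOutside : Prop := ∀ ℓ : Nat.Primes, ℓ ∉ S → IsUnrAt ℓ.1 (locHom ℓ.1 L)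

/-- the divisors of `L` above `q`: `∏_{w ∣ q} ℤ`, place-free -/
noncomputable abbrev Zq (q : ℕ) [Fact q.Prime] : Rep ℤ (GalL L) :=
  Rep.coind (locHom q L) (Rep.trivial ℤ (Gq q) ℤ)

/-- the fractional ideals of `L` prime to `S`: `⨁_{ℓ ∉ S} ∏_{w ∣ ℓ} ℤ` -/
noncomputable abbrev IS : Rep ℤ (GalL L) := dsRep (fun ℓ : OutS S => Zq L ℓ.1.1)

variable {L S}
variable (h : UnrOutside L S)

/-- the divisor of `x ∈ Lˣ` above `ℓ ∉ S` -/
noncomputable def divAt (ℓ : OutS S) : Lx L ⟶ Zq L ℓ.1.1 :=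
  diag ℓ.1.1 L ≫ valZ ℓ.1.1 (locHom ℓ.1.1 L) (h ℓ.1 ℓ.2)

theorem divAt_hom_apply (ℓ : OutS S) (x : Lx L) :
    (divAt h ℓ).hom x =
      (valZ ℓ.1.1 (locHom ℓ.1.1 L) (h ℓ.1 ℓ.2)).hom ((diag ℓ.1.1 L).hom x) := rfl

theorem divAt_eq_zero_iff (ℓ : OutS S) (x : Lx L) :
    (divAt h ℓ).hom x = 0 ↔ IsUnitAt L ℓ.1.1 ((Rep.toAdditive x).toMul : Lˣ) := by
  rw [divAt_hom_apply, ← mem_range_inclφ_iff_valZ, isUnitAt_iff_mem_range]
  rfl

theorem finite_divAt_support (x : Lx L) : {ℓ : OutS S | (divAt h ℓ).hom x ≠ 0}.Finite := by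
  have h1 := finite_setOf_not_isUnitAt L ((Rep.toAdditive x).toMul : Lˣ)
  have h2 : {ℓ : OutS S | ¬ IsUnitAt L ℓ.1.1 ((Rep.toAdditive x).toMul : Lˣ)}.Finite :=
    Set.Finite.preimage (f := fun ℓ : OutS S => ℓ.1) (Subtype.val_injective.injOn) h1
  refine h2.subset ?_
  intro ℓ hℓ
  simp only [Set.mem_setOf_eq] at hℓ ⊢
  rwa [Ne, divAt_eq_zero_iff] at hℓ

open Classical in
/-- the divisor of `x ∈ Lˣ` outside `S`, as a finitely supported family -/
noncomputable def idealFun (x : Lx L) : ⨁ ℓ : OutS S, Zq L ℓ.1.1 :=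
  DFinsupp.mk (finite_divAt_support h x).toFinset (fun ℓ => (divAt h ℓ.1).hom x)

theorem idealFun_apply (x : Lx L) (ℓ : OutS S) : idealFun h x ℓ = (divAt h ℓ).hom x := by
  classical
  rw [idealFun, DFinsupp.mk_apply]
  split_ifs with hm
  · rfl
  · rw [Set.Finite.mem_toFinset] at hm
    simp only [Set.mem_setOf_eq, not_not] at hm
    exact hm.symm

/-- the underlying additive map of the ideal map -/
noncomputable def idealAdd : Lx L →+ IS L S where
  toFun x := dsRep.ofDS _ (idealFun h x)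
  map_zero' := by
    apply dsRep.ext
    intro ℓ
    show idealFun h 0 ℓ = 0
    rw [idealFun_apply]
    exact map_zero _
  map_add' x y := by
    apply dsRep.ext
    intro ℓ
    show idealFun h (x + y) ℓ = idealFun h x ℓ + idealFun h y ℓ
    rw [idealFun_apply, idealFun_apply, idealFun_apply]
    exact map_add _ _ _

theorem idealAdd_apply (x : Lx L) (ℓ : OutS S) :
    dsRep.toDS _ (idealAdd h x) ℓ = (divAt h ℓ).hom x := idealFun_apply h x ℓ

/-- **the ideal map** `Lˣ ⟶ I^S(L)`, `x ↦ (x)` away from `S` -/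
noncomputable def idealMap : Lx L ⟶ IS L S :=
  Rep.ofHom
    { toLinearMap := (idealAdd h).toIntLinearMap
      isIntertwining' := by
        intro g
        refine LinearMap.ext fun x => ?_
        apply dsRep.ext
        intro ℓ
        show dsRep.toDS _ (idealAdd h ((Lx L).ρ g x)) ℓ =
          dsRep.toDS _ ((IS L S).ρ g (idealAdd h x)) ℓ
        rw [dsRep.ρ_apply, idealAdd_apply, idealAdd_apply]
        exact Rep.hom_comm_apply (divAt h ℓ) g x }

theorem idealMap_hom_apply (x : Lx L) (ℓ : OutS S) :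
    dsRep.toDS _ ((idealMap h).hom x) ℓ = (divAt h ℓ).hom x := idealAdd_apply h x ℓ

/-- the coordinates of the ideal map are the (integral) valuations of the conjugates -/
theorem idealMap_coord (x : Lx L) (ℓ : OutS S) (g : GalL L) :
    ((((dsRep.toDS _ ((idealMap h).hom x) ℓ).1 g : ℤ)) : ℝ) =
      valAdd ℓ.1.1 (Rep.toAdditive (((diag ℓ.1.1 L).hom x).1 g)) := by
  rw [idealMap_hom_apply, divAt_hom_apply]
  exact valZ_hom_apply ℓ.1.1 (locHom ℓ.1.1 L) (h ℓ.1 ℓ.2) _ g

/-- the kernel of the ideal map is the group of `S`-units -/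
theorem idealMap_eq_zero_iff (x : Lx L) :
    (idealMap h).hom x = 0 ↔ ((Rep.toAdditive x).toMul : Lˣ) ∈ ESsub L S := by
  rw [mem_ESsub_iff]
  constructor
  · intro h0 ℓ hℓ
    rw [← divAt_eq_zero_iff h ⟨ℓ, hℓ⟩, ← idealMap_hom_apply, h0]
    rfl
  · intro h0
    apply dsRep.ext
    intro ℓ
    rw [idealMap_hom_apply, dsRep.toDS_zero]
    exact (divAt_eq_zero_iff h ℓ x).mpr (h0 ℓ.1 ℓ.2)

theorem ker_idealMap :
    LinearMap.ker (idealMap h).hom.toLinearMap = LinearMap.range (ESincl L S).hom.toLinearMap := by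
  ext x
  rw [LinearMap.mem_ker, mem_range_ESincl_iff]
  exact idealMap_eq_zero_iff h x

theorem idealMap_ESincl (u : ES L S) : (idealMap h).hom ((ESincl L S).hom u) = 0 :=
  (idealMap_eq_zero_iff h _).mpr ((mem_range_ESincl_iff L S _).mp ⟨u, rfl⟩)

end Ideal

end Fermat.Agent.S55.IdeleVal44
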