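/-
S55 / 15b-IDELE-SIDELE (helper44), part 3: the `S`-idele class module of a level `L`,
`C_S(L) = (J_S(L) × I^S(L)) / Lˣ`, in helper73's place-free coinduced model, with the exact
sequences `0 → Lˣ → J_S × I^S → C_S → 0` and `0 → E_S → J_S → C_S (→ 0 if Cl_S = 1)`.
-/
import Mathlib
import Fermat.Prelude.Def_GaloisRep_CompletionBridge
import Fermat.Agent.S55.Idele73.Basic
import Fermat.Agent.S55.IdeleVal44.Val
import Fermat.Agent.S55.IdeleVal44.SIdele
import Fermat.Agent.S55.IdeleVal44.Ideal

set_option autoImplicit false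

open CategoryTheory

namespace Fermat.Agent.S55.IdeleVal44

open scoped NNReal DirectSum

open Fermat.Agent.S55.Idele73.Basic

attribute [local instance] factPrimes44

/-! ### binary products of representations over `ℤ` -/

section ProdRep

/- (generic coefficient ring `k`: for abstract `Rep ℤ G` instance synthesis would pick
`AddCommGroup.toIntModule` instead of the module structure of the representation) -/
variable {k : Type} [CommRing k] {G : Type} [Group G] (A B : Rep.{0, 0, 0} k G)

/-- the product of two representations (Mathlib's `Representation.prod`) -/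
noncomputable def prodRep : Rep.{0, 0, 0} k G := Rep.of (A.ρ.prod B.ρ)

/-- the pair of an element of `A` and an element of `B` -/
def prodRep.mk (a : A) (b : B) : prodRep A B := ((a, b) : A.V × B.V)

/-- first component -/
def prodRep.p1 (x : prodRep A B) : A := (show A.V × B.V from x).1

/-- second component -/
def prodRep.p2 (x : prodRep A B) : B := (show A.V × B.V from x).2

@[simp] theorem prodRep.p1_mk (a : A) (b : B) : prodRep.p1 A B (prodRep.mk A B a b) = a := rfl

@[simp] theorem prodRep.p2_mk (a : A) (b : B) : prodRep.p2 A B (prodRep.mk A B a b) = b := rfl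

theorem prodRep.mk_p1_p2 (x : prodRep A B) :
    prodRep.mk A B (prodRep.p1 A B x) (prodRep.p2 A B x) = x := rfl

theorem prodRep.ext {x y : prodRep A B} (h1 : prodRep.p1 A B x = prodRep.p1 A B y)
    (h2 : prodRep.p2 A B x = prodRep.p2 A B y) : x = y := Prod.ext h1 h2

theorem prodRep.ρ_mk (g : G) (a : A) (b : B) :
    (prodRep A B).ρ g (prodRep.mk A B a b) = prodRep.mk A B (A.ρ g a) (B.ρ g b) := rfl

theorem prodRep.p1_add (x y : prodRep A B) :
    prodRep.p1 A B (x + y) = prodRep.p1 A B x + prodRep.p1 A B y := rfl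

theorem prodRep.p2_add (x y : prodRep A B) :
    prodRep.p2 A B (x + y) = prodRep.p2 A B x + prodRep.p2 A B y := rfl

theorem prodRep.p1_sub (x y : prodRep A B) :
    prodRep.p1 A B (x - y) = prodRep.p1 A B x - prodRep.p1 A B y := rfl

theorem prodRep.p2_sub (x y : prodRep A B) :
    prodRep.p2 A B (x - y) = prodRep.p2 A B x - prodRep.p2 A B y := rfl

theorem prodRep.p1_zero : prodRep.p1 A B 0 = 0 := rfl

theorem prodRep.p2_zero : prodRep.p2 A B 0 = 0 := rfl

/-- the first projection -/
noncomputable def prodRep.fst : prodRep A B ⟶ A :=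
  Rep.ofHom (Representation.IntertwiningMap.fst k A.ρ B.ρ)

/-- the second projection -/
noncomputable def prodRep.snd : prodRep A B ⟶ B :=
  Rep.ofHom (Representation.IntertwiningMap.snd k A.ρ B.ρ)

/-- the first inclusion -/
noncomputable def prodRep.inl : A ⟶ prodRep A B :=
  Rep.ofHom (Representation.IntertwiningMap.inl k A.ρ B.ρ)

/-- the second inclusion -/
noncomputable def prodRep.inr : B ⟶ prodRep A B :=
  Rep.ofHom (Representation.IntertwiningMap.inr k A.ρ B.ρ)

variable {A B} in
/-- the map into a product given by its two components -/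
noncomputable def prodRep.lift {C : Rep.{0, 0, 0} k G} (f : C ⟶ A) (g : C ⟶ B) : C ⟶ prodRep A B :=
  Rep.ofHom (Representation.IntertwiningMap.prod f.hom g.hom)

@[simp] theorem prodRep.fst_hom_apply (x : prodRep A B) :
    (prodRep.fst A B).hom x = prodRep.p1 A B x := rfl

@[simp] theorem prodRep.snd_hom_apply (x : prodRep A B) :
    (prodRep.snd A B).hom x = prodRep.p2 A B x := rfl

@[simp] theorem prodRep.inl_hom_apply (a : A) :
    (prodRep.inl A B).hom a = prodRep.mk A B a 0 := rfl

@[simp] theorem prodRep.inr_hom_apply (b : B) :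
    (prodRep.inr A B).hom b = prodRep.mk A B 0 b := rfl

@[simp] theorem prodRep.lift_hom_apply {C : Rep.{0, 0, 0} k G} (f : C ⟶ A) (g : C ⟶ B) (c : C) :
    (prodRep.lift f g).hom c = prodRep.mk A B (f.hom c) (g.hom c) := rfl

/-- A criterion for short exactness in `Rep`. -/
theorem shortExact_of44 {S : ShortComplex (Rep.{0, 0, 0} k G)}
    (hf : Function.Injective S.f.hom) (hg : Function.Surjective S.g.hom)
    (hex : ∀ x : S.X₂, S.g.hom x = 0 → ∃ y : S.X₁, S.f.hom y = x) : S.ShortExact where
  exact := (forget₂ (Rep.{0} k G) (ModuleCat.{0} k)).reflects_exact_of_faithful _ <|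
    (ShortComplex.moduleCat_exact_iff _).2 fun x hx => hex x hx
  mono_f := (Rep.mono_iff_injective _).2 hf
  epi_g := (Rep.epi_iff_surjective _).2 hg

end ProdRep

/-! ### the class module -/

section ClassModule

variable {L : IntermediateField ℚ Qbar} [Normal ℚ L] {S : Finset Nat.Primes}
variable (h : UnrOutside L S)

variable (L S) in
/-- `J_S(L) × I^S(L)`: the ideles of `L` modulo the unit ideles outside `S` -/
noncomputable abbrev JIS : Rep ℤ (GalL L) := prodRep (JS L S) (IS L S)

/-- the diagonal map `Lˣ ⟶ J_S(L) × I^S(L)` -/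
noncomputable def deltaS : Lx L ⟶ JIS L S := prodRep.lift (diagS L S) (idealMap h)

theorem deltaS_hom_apply (x : Lx L) :
    (deltaS h).hom x = prodRep.mk _ _ ((diagS L S).hom x) ((idealMap h).hom x) := rfl

theorem p1_deltaS (x : Lx L) : prodRep.p1 _ _ ((deltaS h).hom x) = (diagS L S).hom x := rfl

theorem p2_deltaS (x : Lx L) : prodRep.p2 _ _ ((deltaS h).hom x) = (idealMap h).hom x := rfl

/-- the diagonal `Lˣ → ∏_{w ∣ q} L_wˣ` is injective -/
theorem diag_injective44 (q : ℕ) [Fact q.Prime] : Function.Injective (diag q L).hom := by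
  intro x y hxy
  have h1 := congrArg (fun f : Jq q L => Rep.toAdditive (f.1 1)) hxy
  simp only [diag_hom_apply, one_smul] at h1
  have h2 : Units.map (iotaL q L).toMonoidHom ((Rep.toAdditive x).toMul : Lˣ) =
      Units.map (iotaL q L).toMonoidHom ((Rep.toAdditive y).toMul : Lˣ) :=
    Additive.ofMul.injective h1
  have h3 : ((Rep.toAdditive x).toMul : Lˣ) = (Rep.toAdditive y).toMul :=
    Units.map_injective (iotaL_injective q L) h2
  exact h3

theorem diagS_injective (hS : S.Nonempty) : Function.Injective (diagS L S).hom := by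
  obtain ⟨q, hq⟩ := hS
  intro x y hxy
  apply diag_injective44 (L := L) q.1
  have := congrArg (fun f : JS L S => dsRep.toDS _ f (⟨q, hq⟩ : InS S)) hxy
  simpa only [diagS_hom_apply] using this

theorem deltaS_injective (hS : S.Nonempty) : Function.Injective (deltaS h).hom := by
  intro x y hxy
  apply diagS_injective hS
  have := congrArg (prodRep.p1 _ _) hxy
  simpa only [p1_deltaS] using this

theorem range_deltaS_le_comap (g : GalL L) :
    LinearMap.range (deltaS h).hom.toLinearMap ≤
      (LinearMap.range (deltaS h).hom.toLinearMap).comap ((JIS L S).ρ g) := by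
  rintro _ ⟨x, rfl⟩
  exact ⟨(Lx L).ρ g x, Rep.hom_comm_apply (deltaS h) g x⟩

/-- **the `S`-idele class module** `C_S(L) = (J_S(L) × I^S(L)) / Lˣ` -/
noncomputable def CS : Rep ℤ (GalL L) :=
  Rep.quotient (JIS L S) (LinearMap.range (deltaS h).hom.toLinearMap) (range_deltaS_le_comap h)

/-- the projection `J_S × I^S ⟶ C_S` -/
noncomputable def toCS : JIS L S ⟶ CS h :=
  Rep.mkQ (JIS L S) (LinearMap.range (deltaS h).hom.toLinearMap) (range_deltaS_le_comap h)

theorem toCS_surjective : Function.Surjective (toCS h).hom :=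
  Submodule.mkQ_surjective _

theorem toCS_eq_zero_iff (y : JIS L S) :
    (toCS h).hom y = 0 ↔ y ∈ LinearMap.range (deltaS h).hom.toLinearMap :=
  Submodule.Quotient.mk_eq_zero _

theorem toCS_deltaS_apply (x : Lx L) : (toCS h).hom ((deltaS h).hom x) = 0 :=
  (toCS_eq_zero_iff h _).mpr ⟨x, rfl⟩

theorem deltaS_toCS : deltaS h ≫ toCS h = 0 := by
  apply Rep.hom_ext
  ext x
  exact toCS_deltaS_apply h x

/-- `0 → Lˣ → J_S × I^S → C_S → 0` -/
noncomputable def sesJIS : ShortComplex (Rep.{0, 0, 0} ℤ (GalL L)) :=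
  ShortComplex.mk (deltaS h) (toCS h) (deltaS_toCS h)

theorem sesJIS_shortExact (hS : S.Nonempty) : (sesJIS h).ShortExact :=
  shortExact_of44 (deltaS_injective h hS) (toCS_surjective h)
    (fun y hy => (toCS_eq_zero_iff h y).mp hy)

/-- the map `J_S ⟶ C_S` -/
noncomputable def jsToCS : JS L S ⟶ CS h := prodRep.inl _ _ ≫ toCS h

theorem jsToCS_hom_apply (y : JS L S) :
    (jsToCS h).hom y = (toCS h).hom (prodRep.mk _ _ y 0) := rfl

variable (L S) in
/-- the diagonal embedding of the `S`-units `E_S ⟶ J_S` -/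
noncomputable def esToJS : ES L S ⟶ JS L S := ESincl L S ≫ diagS L S

theorem esToJS_hom_apply (u : ES L S) :
    (esToJS L S).hom u = (diagS L S).hom ((ESincl L S).hom u) := rfl

theorem esToJS_injective (hS : S.Nonempty) : Function.Injective (esToJS L S).hom :=
  (diagS_injective hS).comp (ESincl_injective L S)

/-- exactness of `E_S → J_S → C_S` at `J_S` -/
theorem jsToCS_eq_zero_iff (y : JS L S) :
    (jsToCS h).hom y = 0 ↔ ∃ u : ES L S, (esToJS L S).hom u = y := by
  rw [jsToCS_hom_apply, toCS_eq_zero_iff]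
  constructor
  · rintro ⟨x, hx⟩
    have hx' : (deltaS h).hom x = prodRep.mk _ _ y 0 := hx
    have h1 : (diagS L S).hom x = y := congrArg (prodRep.p1 _ _) hx'
    have h2 : (idealMap h).hom x = 0 := congrArg (prodRep.p2 _ _) hx'
    have h3 : x ∈ LinearMap.range (ESincl L S).hom.toLinearMap := by
      rw [← ker_idealMap h]
      exact h2
    obtain ⟨u, rfl⟩ := h3
    exact ⟨u, h1⟩
  · rintro ⟨u, rfl⟩
    refine ⟨(ESincl L S).hom u, ?_⟩
    apply prodRep.ext
    · rfl
    · show (idealMap h).hom ((ESincl L S).hom u) = 0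
      exact idealMap_ESincl h u

theorem esToJS_jsToCS : esToJS L S ≫ jsToCS h = 0 := by
  apply Rep.hom_ext
  ext u
  exact (jsToCS_eq_zero_iff h _).mpr ⟨u, rfl⟩

/-- if every ideal prime to `S` is principal (`Cl_S(L) = 1`), then `J_S → C_S` is onto -/
theorem jsToCS_surjective (hsurj : Function.Surjective (idealMap h).hom) :
    Function.Surjective (jsToCS h).hom := by
  intro c
  obtain ⟨y, rfl⟩ := toCS_surjective h c
  obtain ⟨x, hx⟩ := hsurj (prodRep.p2 _ _ y)
  refine ⟨prodRep.p1 _ _ y - (diagS L S).hom x, ?_⟩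
  rw [jsToCS_hom_apply]
  have h1 : prodRep.mk (JS L S) (IS L S) (prodRep.p1 _ _ y - (diagS L S).hom x) 0 =
      y - (deltaS h).hom x := by
    apply prodRep.ext
    · rw [prodRep.p1_mk, prodRep.p1_sub, p1_deltaS]
    · rw [prodRep.p2_mk, prodRep.p2_sub, p2_deltaS, hx, sub_self]
  rw [h1, map_sub, toCS_deltaS_apply, sub_zero]

/-- `E_S → J_S → C_S` -/
noncomputable def sesCS : ShortComplex (Rep.{0, 0, 0} ℤ (GalL L)) :=
  ShortComplex.mk (esToJS L S) (jsToCS h) (esToJS_jsToCS h)

/-- `0 → E_S → J_S → C_S → 0` is exact as soon as `Cl_S(L) = 1` and `S ≠ ∅` -/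
theorem sesCS_shortExact (hS : S.Nonempty) (hsurj : Function.Surjective (idealMap h).hom) :
    (sesCS h).ShortExact :=
  shortExact_of44 (esToJS_injective hS) (jsToCS_surjective h hsurj)
    (fun y hy => (jsToCS_eq_zero_iff h y).mp hy)

end ClassModule

end Fermat.Agent.S55.IdeleVal44
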