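/-
S55 / 15b-IDELE-SIDELE (helper44), part 4: for an `S`-level `L` (Prelude
`IntermediateField.IsUnramifiedOutside S`) the hypothesis `UnrOutside L S` of `Ideal.lean` /
`Class.lean` holds (helper42's `UnrBridge42.isUnrAt_locHom`), so `I^S(L)`, the ideal map and the
class module `C_S(L)` exist unconditionally at every `S`-level.
-/
import Mathlib
import Fermat.Agent.S55.UnrBridge42.IdeleAdapter
import Fermat.Agent.S55.IdeleVal44.Class

set_option autoImplicit false

open CategoryTheory

namespace Fermat.Agent.S55.IdeleVal44

open Fermat.Agent.S55.Idele73.Basic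

attribute [local instance] factPrimes44

/-- an `S`-level is unramified outside `S` in the sense of `UnrOutside` -/
theorem unrOutside_of_level {S : Finset Nat.Primes} (L : IntermediateField ℚ Qbar) [Normal ℚ L]
    (hL : L.IsUnramifiedOutside S) : UnrOutside L S := by
  intro ℓ hℓ
  exact Fermat.Agent.S55.UnrBridge42.isUnrAt_locHom ℓ.1 L hL hℓ

/-- the class module of an `S`-level -/
noncomputable abbrev CSlevel {S : Finset Nat.Primes} (L : IntermediateField ℚ Qbar) [Normal ℚ L]
    (hL : L.IsUnramifiedOutside S) : Rep ℤ (GalL L) := CS (unrOutside_of_level L hL)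

/-- the ideal map of an `S`-level -/
noncomputable abbrev idealMapLevel {S : Finset Nat.Primes} (L : IntermediateField ℚ Qbar)
    [Normal ℚ L] (hL : L.IsUnramifiedOutside S) : Lx L ⟶ IS L S :=
  idealMap (unrOutside_of_level L hL)

/-- an enlargement `S ⊆ T` keeps a level a level: `UnrOutside` is monotone -/
theorem UnrOutside.mono {S T : Finset Nat.Primes} {L : IntermediateField ℚ Qbar} [Normal ℚ L]
    (h : UnrOutside L S) (hST : S ⊆ T) : UnrOutside L T :=
  fun ℓ hℓ => h ℓ (fun hS => hℓ (hST hS))

end Fermat.Agent.S55.IdeleVal44
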