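/-
S55 / 15b + 36-D2 glue (helper44): the finite-level modules `IS L S`, `JS L S` of `IdeleVal44`
are the `Gal(ℚbar/L)`-invariants of the limit modules `CS79.DivLimit.ISlim S` (helper79) and
`GlobalMod94.JS.JSp S` (helper94), as invariant descent data along `resL L`, compatibly with
the ideal map / divisor map and with the diagonals.
-/
import Mathlib
import Fermat.Agent.S55.CS79.DivLimit
import Fermat.Agent.S55.GlobalMod94.JS
import Fermat.Agent.S55.IdeleVal44.Inst

set_option autoImplicit false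

open CategoryTheory

namespace Fermat.Agent.S55.IdeleVal44

open scoped DirectSum

open Fermat.Agent.S55.Profin15 Fermat.Agent.S55.Idele73.Basic
open Fermat.Agent.S55.CS79.InvDescent Fermat.Agent.S55.CS79.Smooth Fermat.Agent.S55.CS79.Limit
open Fermat.Agent.S55.CS79.DivLimit Fermat.Agent.S55.GlobalMod94.JS
open Fermat.Agent.S55.GlobalMod94.Generic

attribute [local instance] factPrimes44

variable {S : Finset Nat.Primes} (L : IntermediateField ℚ Qbar) [Normal ℚ L]
variable (hL : L.IsUnramifiedOutside S)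

/-! ### the ideal module -/

/-- the inclusion of the finite-level ideal module into the limit ideal module -/
noncomputable def eIS : IS L S →ₗ[ℤ] ISlim S :=
  DirectSum.lmap (fun ℓ : PrimesOut S => levelIncl S (ℓ.1 : ℕ) L hL (trivZ (ℓ.1 : ℕ)))

theorem eIS_apply (x : IS L S) (ℓ : OutS S) :
    (eIS L hL x) ℓ = levelIncl S (ℓ.1 : ℕ) L hL (trivZ (ℓ.1 : ℕ)) (dsRep.toDS _ x ℓ) :=
  DirectSum.lmap_apply _ _ _

/-- **`I^S(L)` is the module of `Gal(ℚbar/L)`-invariants of the limit ideal module** -/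
theorem isInvDescent_IS : IsInvDescent (ISlim S) (resL L) (IS L S) (eIS L hL) :=
  Fermat.Agent.S55.CS79.DirectSumRep.isInvDescent_dsRep
    (fun ℓ : PrimesOut S => CS79.Limit.JS S (ℓ.1 : ℕ) (trivZ (ℓ.1 : ℕ)))
    (fun ℓ : PrimesOut S => Rep.coind (locHom (ℓ.1 : ℕ) L) (trivZ (ℓ.1 : ℕ)))
    (fun ℓ : PrimesOut S => levelIncl S (ℓ.1 : ℕ) L hL (trivZ (ℓ.1 : ℕ)))
    (fun ℓ => isInvDescent_levelIncl S (ℓ.1 : ℕ) L hL (trivZ (ℓ.1 : ℕ)))

/-- compatibility of the ideal map with the divisor map in the limit -/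
theorem eIS_idealMap (x : Lx L) (y : ESRep20.QSxRep S)
    (hxy : ((toUnit S y : Qbarˣ) : Qbar) = (((Rep.toAdditive x).toMul : Lˣ) : L)) :
    eIS L hL ((idealMap (unrOutside_of_level L hL)).hom x) = (divLim S).hom y := by
  refine DFinsupp.ext fun ℓ => ?_
  rw [eIS_apply]
  apply Subtype.ext
  apply Subtype.ext
  funext g
  refine Eq.trans ?_ (divLim_apply S y ℓ g).symm
  show ((dsRep.toDS _ ((idealMap (unrOutside_of_level L hL)).hom x) ℓ).1 (resL L g) : ℤ) = _
  have h1 : ∀ r : ℝ, valAdd (ℓ.1 : ℕ) (Rep.toAdditive (((diag (ℓ.1 : ℕ) L).hom x).1 (resL L g)))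
      = r → ((dsRep.toDS _ ((idealMap (unrOutside_of_level L hL)).hom x) ℓ).1 (resL L g) : ℤ)
        = ⌊r⌋ := by
    intro r hr
    rw [← hr, ← idealMap_coord (unrOutside_of_level L hL) x ℓ (resL L g), Int.floor_intCast]
  apply h1
  show valAdd (ℓ.1 : ℕ) (Rep.toAdditive (((diag (ℓ.1 : ℕ) L).hom x).1 (resL L g))) =
    valAdd (ℓ.1 : ℕ) (Additive.ofMul (locU (ℓ.1 : ℕ) g (toUnit S y)))
  congr 1
  apply Additive.toMul.injective
  apply Units.ext
  show iotaL (ℓ.1 : ℕ) L ((resL L g) (((Rep.toAdditive x).toMul : Lˣ) : L)) =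
    padicEmbedding (ℓ.1 : ℕ) (g ((toUnit S y : Qbarˣ) : Qbar))
  rw [iotaL_apply, resL_apply, hxy]

/-! ### the idele module -/

/-- the underlying additive map of `eJS` -/
noncomputable def eJSAdd : JS L S →+ JSp S where
  toFun x := fun q : ↥S =>
    levelIncl S ((q : Nat.Primes) : ℕ) L hL (localUnits ((q : Nat.Primes) : ℕ)) (dsRep.toDS _ x q)
  map_zero' := by
    funext q
    show levelIncl S ((q : Nat.Primes) : ℕ) L hL (localUnits ((q : Nat.Primes) : ℕ)) 0 = 0
    exact map_zero _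
  map_add' x y := by
    funext q
    show levelIncl S ((q : Nat.Primes) : ℕ) L hL (localUnits ((q : Nat.Primes) : ℕ))
        (dsRep.toDS _ x q + dsRep.toDS _ y q) = _
    exact map_add _ _ _

/-- the inclusion of the finite-level `S`-ideles into the limit `S`-idele module -/
noncomputable def eJS : JS L S →ₗ[ℤ] JSp S := (eJSAdd L hL).toIntLinearMap

theorem eJS_apply (x : JS L S) (q : ↥S) :
    (eJS L hL x) q =
      levelIncl S ((q : Nat.Primes) : ℕ) L hL (localUnits ((q : Nat.Primes) : ℕ))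
        (dsRep.toDS _ x q) := rfl

/-- **`J_S(L)` is the module of `Gal(ℚbar/L)`-invariants of the limit `S`-idele module** -/
theorem isInvDescent_JS : IsInvDescent (JSp S) (resL L) (JS L S) (eJS L hL) := by
  have hq : ∀ q : ↥S, IsInvDescent (JSq S ((q : Nat.Primes) : ℕ)) (resL L)
      (Jq ((q : Nat.Primes) : ℕ) L)
      (levelIncl S ((q : Nat.Primes) : ℕ) L hL (localUnits ((q : Nat.Primes) : ℕ))) :=
    fun q => isInvDescent_levelIncl S ((q : Nat.Primes) : ℕ) L hL _
  refine ⟨?_, ?_, ?_⟩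
  · intro x y hxy
    apply dsRep.ext
    intro q
    apply (hq q).inj
    exact congrFun hxy q
  · intro a
    constructor
    · rintro ⟨x, rfl⟩ s hs
      funext q
      show (JSq S ((q : Nat.Primes) : ℕ)).ρ s ((eJS L hL x) q) = (eJS L hL x) q
      rw [eJS_apply]
      exact (hq q).fixed _ hs
    · intro ha
      have hfix : ∀ q : ↥S, ∀ s : GQ, resL L s = 1 →
          (JSq S ((q : Nat.Primes) : ℕ)).ρ s (a q) = a q := by
        intro q s hs
        exact congrFun (ha s hs) q
      choose b hb using fun q => (hq q).exists_eq (hfix q)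
      refine ⟨dsRep.ofDS _ (DFinsupp.equivFunOnFintype.symm b), ?_⟩
      funext q
      show (eJS L hL _) q = a q
      rw [eJS_apply]
      exact hb q
  · intro g x
    funext q
    show (JSq S ((q : Nat.Primes) : ℕ)).ρ g ((eJS L hL x) q) =
      (eJS L hL ((JS L S).ρ (resL L g) x)) q
    rw [eJS_apply, eJS_apply]
    exact (hq q).equivariant g _

/-- compatibility of the diagonals -/
theorem eJS_diagS (x : Lx L) (y : ESRep20.QSxRep S)
    (hxy : ((toUnit S y : Qbarˣ) : Qbar) = (((Rep.toAdditive x).toMul : Lˣ) : L)) :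
    eJS L hL ((diagS L S).hom x) = (diagJ S).hom y := by
  funext q
  rw [eJS_apply]
  apply Subtype.ext
  apply Subtype.ext
  funext g
  refine Eq.trans ?_ (diagJ_apply S y q g).symm
  show ((dsRep.toDS _ ((diagS L S).hom x) q).1 (resL L g)) = _
  rw [diagS_hom_apply]
  apply Additive.toMul.injective
  apply Units.ext
  show iotaL ((q : Nat.Primes) : ℕ) L ((resL L g) (((Rep.toAdditive x).toMul : Lˣ) : L)) =
    padicEmbedding ((q : Nat.Primes) : ℕ) (g ((toUnit S y : Qbarˣ) : Qbar))
  rw [iotaL_apply, resL_apply, hxy]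

end Fermat.Agent.S55.IdeleVal44
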