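/-
S55 / 15b-IDELE-SIDELE (helper44), part 5: for `T` large enough (`Cl(𝓞_{L,T}) = 1`) the ideal map
`Lˣ ⟶ I^T(L)` is onto, hence `0 → E_T(L) → J_T(L) → C_T(L) → 0` is short exact
(glue of helper16's `FirstIneq16.Bridge.exists_unit_valAdd_diag_eq` and
`FirstIneq16.Class.exists_finset_trivial_class` with `Class.lean`).
-/
import Mathlib
import Fermat.Agent.S55.FirstIneq16.Bridge
import Fermat.Agent.S55.IdeleVal44.Class

set_option autoImplicit false

open CategoryTheory

namespace Fermat.Agent.S55.IdeleVal44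

open scoped DirectSum

open IsDedekindDomain NumberField

open Fermat.Agent.S55.Idele73.Basic

attribute [local instance] factPrimes44

variable (L : IntermediateField ℚ Qbar) [FiniteDimensional ℚ L] [Normal ℚ L]

/-- `Cl(𝓞_{L,T}) = 1`, in the divisor form of `FirstIneq16.Class.exists_finset_trivial_class` -/
def TrivialClass (T : Finset Nat.Primes) : Prop :=
  ∀ n : HeightOneSpectrum (𝓞 L) →₀ ℤ, ∃ x : Lˣ, ∀ P : HeightOneSpectrum (𝓞 L),
    (∀ ℓ ∈ T, (((ℓ : ℕ) : 𝓞 L)) ∉ P.asIdeal) → P.valuation L (x : L) = WithZero.exp (-(n P))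

theorem TrivialClass.mono {T T' : Finset Nat.Primes} (hT : TrivialClass L T) (hTT' : T ⊆ T') :
    TrivialClass L T' :=
  Fermat.Agent.S55.FirstIneq16.Class.forall_superset_trivial_class L hT hTT'

theorem exists_trivialClass (S : Finset Nat.Primes) :
    ∃ T : Finset Nat.Primes, S ⊆ T ∧ TrivialClass L T :=
  Fermat.Agent.S55.FirstIneq16.Class.exists_finset_trivial_class L S

variable {L}

/-- **`Cl_T(L) = 1` ⇒ the ideal map is onto** -/
theorem idealMap_surjective_of_trivialClass {T : Finset Nat.Primes} (h : UnrOutside L T)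
    (hT : TrivialClass L T) : Function.Surjective (idealMap h).hom := by
  classical
  intro i
  let n : Nat.Primes → GalL L → ℤ := fun ℓ g =>
    if hℓ : ℓ ∈ T then 0 else ((dsRep.toDS _ i (⟨ℓ, hℓ⟩ : OutS T)).1 g : ℤ)
  have hn : ∀ (ℓ : OutS T) (g : GalL L), n ℓ.1 g = ((dsRep.toDS _ i ℓ).1 g : ℤ) := by
    intro ℓ g
    exact dif_neg ℓ.2
  have hfin : {ℓ | n ℓ ≠ 0}.Finite := by
    have h1 : {ℓ : OutS T | dsRep.toDS _ i ℓ ≠ 0}.Finite := DFinsupp.finite_support _
    refine (h1.image Subtype.val).subset ?_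
    intro ℓ hℓ
    simp only [Set.mem_setOf_eq] at hℓ
    by_cases hℓT : ℓ ∈ T
    · exfalso
      apply hℓ
      funext g
      exact dif_pos hℓT
    · refine ⟨⟨ℓ, hℓT⟩, ?_, rfl⟩
      simp only [Set.mem_setOf_eq]
      intro h0
      apply hℓ
      funext g
      rw [hn ⟨ℓ, hℓT⟩ g, h0]
      rfl
  have hinv : ∀ (ℓ : Nat.Primes) (τ : Gq (ℓ : ℕ)) (g : GalL L),
      n ℓ (locHom (ℓ : ℕ) L τ * g) = n ℓ g := by
    intro ℓ τ g
    by_cases hℓT : ℓ ∈ T
    · show (if hℓ : ℓ ∈ T then (0 : ℤ) else _) = (if hℓ : ℓ ∈ T then (0 : ℤ) else _)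
      rw [dif_pos hℓT, dif_pos hℓT]
    · rw [hn ⟨ℓ, hℓT⟩, hn ⟨ℓ, hℓT⟩]
      exact (dsRep.toDS _ i (⟨ℓ, hℓT⟩ : OutS T)).2 τ g
  obtain ⟨x, hx⟩ := Fermat.Agent.S55.FirstIneq16.Bridge.exists_unit_valAdd_diag_eq L T hT h n
    hfin hinv
  refine ⟨x, ?_⟩
  apply dsRep.ext
  intro ℓ
  apply Subtype.ext
  funext g
  have h1 := idealMap_coord h x ℓ g
  rw [hx ℓ.1 ℓ.2 g, hn ℓ g] at h1
  exact_mod_cast h1

/-- for `T` large enough, `0 → E_T → J_T → C_T → 0` is short exact -/
theorem sesCS_shortExact_of_trivialClass {T : Finset Nat.Primes} (h : UnrOutside L T)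
    (hne : T.Nonempty) (hT : TrivialClass L T) : (sesCS h).ShortExact :=
  sesCS_shortExact h hne (idealMap_surjective_of_trivialClass h hT)

variable (L) in
/-- every finite `S` can be enlarged to `T` such that for all `T' ⊇ T` at which `L` is unramified
outside, the ideal map is onto and `0 → E_T' → J_T' → C_T' → 0` is short exact -/
theorem exists_finset_forall_sesCS_shortExact (S : Finset Nat.Primes) :
    ∃ T : Finset Nat.Primes, S ⊆ T ∧ ∀ T' : Finset Nat.Primes, T ⊆ T' → T'.Nonempty →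
      ∀ h : UnrOutside L T', Function.Surjective (idealMap h).hom ∧ (sesCS h).ShortExact := by
  obtain ⟨T, hST, hT⟩ := exists_trivialClass L S
  refine ⟨T, hST, fun T' hTT' hne h => ?_⟩
  have hT' := hT.mono L hTT'
  exact ⟨idealMap_surjective_of_trivialClass h hT', sesCS_shortExact_of_trivialClass h hne hT'⟩

end Fermat.Agent.S55.IdeleVal44
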